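import Fermat.Agent.Ribet.H220.S2Glue
import Fermat.Agent.S33.H92.ReadyChain

/-!
# S33 — the wall at `p` at READY levels (helper849): glue between the (S2)-chain of row 38 and
the level bridge of S33

Situation on main:

* `Ribet.H220.s2Five_of_chain : SL → NC → DK → S2FiveStatement` delivers (S2) only for `p ≥ 5`
  (the leaf `DeepKummerStatement` carries `5 ≤ p`);
* `S33.H862.ordFil_of_s2` asks for the FULL `Ribet.H884.S2Statement` (all odd `p`, all `M'`),
  which the wall cannot deliver at `p = 3`, `M'` odd (no semistable model at `q = 3` unless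
  `2 ∣ M'`);
* `S33.H92.keyStatement_of_ready` only needs `OrdFilReadyStatement`
  (`OrdFilStatement` at the levels with `p = 3 → 2 ∣ M'`).

* `S33.H92.keyStatement_of_s2Ready` (`S33/H92/ReadyChain.lean`) reduces S33 to
  `S33.H92.S2ReadyStatement` ((S2) at READY levels) and OLD.

This file closes the remaining gap, on the side of the (S2)-chain:

* `DeepKummerReadyStatement` : the leaf DK of `Ribet/H220/S2Spec.lean` with the hypothesis
  `5 ≤ p` replaced by `p ≠ 2` and `p = 3 → 2 ∣ M'` (everything else VERBATIM);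
* `kummerChiFor_of_chain_ready`,
  `s2Ready_of_chain : SL → NC → DKReady → S33.H92.S2ReadyStatement`;
* `keyStatement_of_chain    : SL → NC → DKReady → OldAugStatement → KeyStatement`;
* comparison lemmas `deepKummer_of_ready`, `s2Five_of_s2Ready`, `s2Ready_of_five_of_three`.
-/

set_option autoImplicit false
set_option linter.style.haveILetI false
set_option synthInstance.maxHeartbeats 400000
set_option maxHeartbeats 1000000

noncomputable section

namespace Fermat.Agent.S33.H849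

open AlgebraicCurve ModularCurve
open Fermat.Agent.S24 Fermat.Agent.A2.H708 Fermat.Agent.A2.H528
open Fermat.Agent.S29.H395 Fermat.Agent.S29.H801
open Fermat.Agent.Ribet.Spec Fermat.Agent.Ribet.H944.Wall Fermat.Agent.Ribet.H884
open Fermat.Agent.Ribet.H801 Fermat.Agent.Ribet.H912 Fermat.Agent.Ribet.H220
open Fermat.Agent.S33.H92 (S2ReadyStatement)

/-! ## The READY forms -/

/-- **DK at READY levels.**  The leaf `Ribet.H220.DeepKummerStatement` with `5 ≤ p` replaced by
`p ≠ 2` and `p = 3 → 2 ∣ M'` (the levels at which the semistable model at `q = p` exists). -/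
def DeepKummerReadyStatement : Prop :=
  ∀ (p M' : ℕ) [NeZero M'] [NeZero p] [NeZero (p * M')] (hp : p.Prime), p ≠ 2 →
    (p = 3 → 2 ∣ M') → ¬ p ∣ M' →
    ∀ (A : ValuationSubring Kbar) (hA : A.LiesOverPrime p),
    ∀ σ ∈ A.inertiaSubgroupIn ℚ, ∀ c : ℕ, CycloAt p σ c →
    ∀ f : FF (p * M'), f ≠ 0 → (∀ v : Place Kbar (FF (p * M')), (p : ℤ) ∣ v.ord f) →
      Deep (Vinf (p * M') A hp.ne_zero hA) p (cF (p * M') ((p : Kbar) ^ 2)) f →
      Deep (Vzero (p * M') A hp.ne_zero hA) p (cF (p * M') ((p : Kbar) ^ 2)) f →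
      ∃ (y : FF (p * M')) (a : Kbar), a ≠ 0 ∧ y ≠ 0 ∧
        arithmeticRingAut (modularFunctionFieldFull (p * M')) σ f =
          algebraMap Kbar (FF (p * M')) a * y ^ p * f ^ c

/-! ## Comparison with the forms on main -/

/-- The READY form of DK implies the `p ≥ 5` form of `Ribet/H220/S2Spec.lean`. -/
theorem deepKummer_of_ready (h : DeepKummerReadyStatement) : DeepKummerStatement := by
  intro p M' _ _ _ hp hp5 hpM A hA σ hσ c hc f hf0 hord hI hZ
  exact h p M' hp (by omega) (by omega) hpM A hA σ hσ c hc f hf0 hord hI hZ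

/-- The READY form implies the `p ≥ 5` form. -/
theorem s2Five_of_s2Ready (h : S2ReadyStatement) : S2FiveStatement :=
  fun p M' _ _ _ hp hp5 hpM A hA => h p M' hp (by omega) hpM (by omega) A hA

/-- The READY form from the `p ≥ 5` form and the case `p = 3`, `2 ∣ M'`. -/
theorem s2Ready_of_five_of_three (h5 : S2FiveStatement)
    (h3 : ∀ (M' : ℕ) [NeZero M'] [NeZero 3] [NeZero (3 * M')], ¬ 3 ∣ M' → 2 ∣ M' →
      ∀ A : ValuationSubring Kbar, A.LiesOverPrime 3 → S2For 3 M' A (splitPart 3 M' A)) :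
    S2ReadyStatement := by
  intro p M' _ _ _ hp hp2 hpM hr A hA
  by_cases hp3 : p = 3
  · subst hp3
    exact h3 M' hpM (hr rfl) A hA
  · have hp5 : 5 ≤ p := by
      rcases Nat.lt_or_ge p 5 with h | h
      · exfalso
        have h2 := hp.two_le
        interval_cases p
        · exact hp2 rfl
        · exact hp3 rfl
        · exact absurd hp (by decide)
      · exact h
    exact h5 p M' hp hp5 hpM A hA

/-! ## The chain at READY levels -/

/-- **The chain at READY levels.**  SL + NC + DK(READY) give the Kummer form of (S2) for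
`𝒮 = splitPart` at every odd `p`, with `2 ∣ M'` if `p = 3`.  (The proof of
`Ribet.H220.kummerChiFor_of_chain`; only DK sees the prime.) -/
theorem kummerChiFor_of_chain_ready (hSL : SplitLiftStatement) (hNC : NormContrStatement)
    (hDK : DeepKummerReadyStatement)
    (p M' : ℕ) [NeZero M'] [NeZero p] [NeZero (p * M')] (hp : p.Prime) (hp2 : p ≠ 2)
    (hr : p = 3 → 2 ∣ M')
    (hpM : ¬ p ∣ M') (A : ValuationSubring Kbar) (hA : A.LiesOverPrime p) :
    KummerChiFor p M' A (splitPart p M' A) := by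
  intro x hx hnew σ hσ c hc
  -- a Kummer generator with split reductions
  obtain ⟨f, hfK, hfS⟩ := splitClosed p M' hp hpM A hA x hx
  obtain ⟨hf0, D, hDx, hord⟩ := id hfK
  obtain ⟨-, hα, hβ⟩ := hnew
  rw [← hDx] at hα hβ
  -- both norms are `p`-th powers
  obtain ⟨g₁, -, h₁⟩ :=
    (alphaL_mk_eq_zero_iff p M' hp.ne_zero D hf0 (fun w => (hord w).symm)).1 hα
  obtain ⟨g₂, -, h₂⟩ :=
    (betaL_mk_eq_zero_iff p M' hp.ne_zero D hf0 (fun w => (hord w).symm)).1 hβ
  -- depth one, with constants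
  obtain ⟨⟨ϖ₁, hϖ₁0, hϖ₁, hd₁⟩, ⟨ϖ₂, hϖ₂0, hϖ₂, hd₂⟩⟩ := hSL p M' hp hpM A hA f hf0 hfS
  -- a common depth dividing `p`
  have hpA : (p : Kbar) ∈ A.nonunits := hA
  have hp0 : (p : Kbar) ≠ 0 := by exact_mod_cast hp.ne_zero
  obtain ⟨d, hd0, hd, ⟨x₁, hx₁, e₁⟩, ⟨x₂, hx₂, e₂⟩⟩ :=
    exists_common_divisor A hϖ₁0 hϖ₂0 hϖ₁ hϖ₂
  obtain ⟨ϖ, hϖ0, hϖ, ⟨y₁, hy₁, e₃⟩, ⟨e, he, hpe⟩⟩ :=
    exists_common_divisor A hd0 hp0 hd hpA
  have hI : DeepC Kbar (Vinf (p * M') A hp.ne_zero hA) p (cF (p * M') ϖ) f := by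
    refine hd₁.mono (a := cF (p * M') (y₁ * x₁))
      (cF_mem_Vinf (p * M') A hp.ne_zero hA (mul_mem hy₁ hx₁)) ?_
    rw [cF, cF, cF, ← map_mul, e₁, e₃]
    congr 1
    ring
  have hZ : DeepC Kbar (Vzero (p * M') A hp.ne_zero hA) p (cF (p * M') ϖ) f := by
    refine hd₂.mono (a := cF (p * M') (y₁ * x₂))
      (cF_mem_Vzero (p * M') A hp.ne_zero hA (mul_mem hy₁ hx₂)) ?_
    rw [cF, cF, cF, ← map_mul, e₂, e₃]
    congr 1
    ring
  -- norm contraction
  have hnc := hNC p M' hp hp2 hpM A hA f g₁ g₂ hf0 h₁ h₂ ϖ hϖ0 hϖ ⟨e, he, hpe⟩ hI hZ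
  -- rank one: `ϖ ^ n ∈ p² A`
  have hp20 : (p : Kbar) ^ 2 ≠ 0 := pow_ne_zero 2 hp0
  obtain ⟨n, hn⟩ := Fermat.Agent.A3.H675.harch A isAlgebraic_int_Kbar hp hpA ϖ
    ((p : Kbar) ^ 2) hϖ hp20
  have hpow : cF (p * M') ϖ ^ n =
      cF (p * M') ((p : Kbar) ^ 2) * cF (p * M') (ϖ ^ n / (p : Kbar) ^ 2) := by
    rw [cF, cF, cF, ← map_pow, ← map_mul]
    congr 1
    field_simp
  obtain ⟨hnI, hnZ⟩ := hnc n
  have hI' := hnI.mono (cF_mem_Vinf (p * M') A hp.ne_zero hA hn) hpow
  have hZ' := hnZ.mono (cF_mem_Vzero (p * M') A hp.ne_zero hA hn) hpow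
  -- deep Kummer classes are `χ`-eigen
  obtain ⟨y, a, ha0, hy0, hrel⟩ := hDK p M' hp hp2 hr hpM A hA σ hσ c hc f hf0
    (fun v => ⟨(D : Divisor Kbar (FF (p * M'))) v, hord v⟩) hI' hZ'
  exact ⟨f, y, a, hfK, ha0, hy0, hrel⟩

/-- **(S2) at READY levels** from the three leaves (DK in its READY form). -/
theorem s2Ready_of_chain (hSL : SplitLiftStatement) (hNC : NormContrStatement)
    (hDK : DeepKummerReadyStatement) : S2ReadyStatement := by
  intro p M' _ _ _ hp hp2 hpM hr A hA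
  exact s2For_of_kummerChi p M' A _
    (kummerChiFor_of_chain_ready hSL hNC hDK p M' hp hp2 hr hpM A hA)

/-! ## S33: the wall at READY levels -/

/-- **KEY of S33** from the three leaves of the (S2)-chain (DK in its READY form) and OLD. -/
theorem keyStatement_of_chain (hSL : SplitLiftStatement) (hNC : NormContrStatement)
    (hDK : DeepKummerReadyStatement) (hOLD : Fermat.Agent.S33.OldAugStatement) :
    Fermat.Agent.S33.KeyStatement :=
  Fermat.Agent.S33.H92.keyStatement_of_s2Ready (s2Ready_of_chain hSL hNC hDK) hOLD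

end Fermat.Agent.S33.H849

end
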