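import Fermat.Agent.Ribet.H220.S2Level

/-!
# S33 / row 38 — the sub-leaf LEVEL of DK at READY levels (helper849)

`Ribet.H220.LevelStatement` (`Ribet/H220/S2Level.lean`) is frozen with `5 ≤ p`; S33 needs the
wall at `p = 3` as well, at the levels `3 M` with `2 ∣ M` (where A2's MOD at `q = 3` is
available: `A2.Mod.H216.goodRedHyp_of_dvr` takes `q = 3 → 2 ∣ M`).

* `LevelReadyStatement` : `LevelStatement` VERBATIM with `5 ≤ p` replaced by
  `p ≠ 2` and `p = 3 → 2 ∣ M`;
* `level_of_ready       : LevelReadyStatement → Ribet.H220.LevelStatement`.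

So a proof of the READY form serves both S44 (`p ≥ 5`) and S33 (all odd `p`).
-/

set_option autoImplicit false
set_option synthInstance.maxHeartbeats 400000
set_option maxHeartbeats 1600000

noncomputable section

namespace Fermat.Agent.S33.H849

open AlgebraicCurve ModularCurve
open Fermat.Agent.A2 Fermat.Agent.Ribet.H220

/-- **LEVEL at READY levels.**  `Ribet.H220.LevelStatement` with `5 ≤ p` replaced by `p ≠ 2` and
`p = 3 → 2 ∣ M`. -/
def LevelReadyStatement : Prop :=
  ∀ (P : ValuationSubring Qb) (E : IntermediateField ℚ Qb) (M p N : ℕ) [NeZero M] [NeZero p]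
    [NeZero N], M * p = N → p.Prime → p ≠ 2 → (p = 3 → 2 ∣ M) → ¬ p ∣ M → P.LiesOverPrime p →
    ∀ (hE : GoodField P E) (ζ : E), IsPrimitiveRoot ζ p →
    ∀ (V : ValuationSubring (FE E N)) (W : FE E N ≃ₐ[E] FE E N),
      Mod.IsVinf P E N V → Mod.IsFricke E N W →
    ∀ (τ : Qb ≃ₐ[ℚ] Qb) (hτ : τ ∈ P.inertiaSubgroupIn ℚ) (c : ℕ), hE.res τ hτ ζ = ζ ^ c →
    ∀ y : FE E N, y ≠ 0 → DivisibleDiv E p y →
      Deep V p (algebraMap E (FE E N) ((p : E) ^ 2)) y →
      Deep (V.comap (W : FE E N →+* FE E N)) p (algebraMap E (FE E N) ((p : E) ^ 2)) y →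
      ∃ h : FE E N, h ≠ 0 ∧
        arithmeticRingAut (modularFunctionFieldFull N) (hE.res τ hτ) y = h ^ p * y ^ c

/-- The READY form of LEVEL implies the `p ≥ 5` form of `Ribet/H220/S2Level.lean`. -/
theorem level_of_ready (h : LevelReadyStatement) : LevelStatement := by
  intro P E M p N _ _ _ hN hp hp5 hpM hP hE ζ hζ V W hV hW τ hτ c hc y hy hdiv hI hZ
  exact h P E M p N hN hp (by omega) (by omega) hpM hP hE ζ hζ V W hV hW τ hτ c hc y hy hdiv
    hI hZ

end Fermat.Agent.S33.H849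

end
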