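import Fermat.Agent.S33.H849.S2Ready
import Fermat.Agent.S33.H849.LevelReady
import Fermat.Agent.A2.IF.H429.IF
import Fermat.Agent.A2.Mod.H553.Vinf
import Fermat.Agent.A2.Mod.H553.Fricke
import Fermat.Agent.A2.T1.H669.T1Core
import Fermat.Agent.A2.T1.H669.T2

/-!
# S33 / row 38 — the descent glue of the leaf DK, level by level (helper849)

`DK ⟸ LEVEL + GD` (`Ribet/H220/S2Level.lean`), proved POINTWISE in `(p, M', A)`, so that it
serves both the `p ≥ 5` form (`Ribet.H220.DeepKummerStatement`, row 38) and the READY form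
(`S33.H849.DeepKummerReadyStatement`, S33 at `p = 3`, `2 ∣ M'`):

* `deepKummerAt_of_levelAt` : GD + (LEVEL at every good level `E ∋ ζ_p` for `(A, M', p)`) ⟹
                              the body of DK at `(p, M', A)`;
* `deepKummerReady_of_levelReady : LevelReadyStatement → GaussDescentStatement →
                                   DeepKummerReadyStatement`;
* `deepKummer_of_level_ptw       : LevelStatement → GaussDescentStatement → DeepKummerStatement`
  (the `p ≥ 5` corollary).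

Proof (the recipe of helper220, as in A2's `T1`): descend `f, g₁, z₁, g₂, z₂` (with
`f = gᵢ ^ p (1 + p² zᵢ)`) and a primitive `p`-th root of unity to a good level `E`
(`T1.H669.exists_finset_descent`, `A2.IF.H429.ifStatement`); `V := Mod.H553.VinfE`,
`W := Mod.H553.wE`; `z₁ ∈ V` and `W z₂ ∈ V` by GD; `DivisibleDiv` by `T1.H669.divisibleDiv_of_ord`;
conclude with `a = 1` by `T1.H669.iota_arithmeticRingAut`.
-/

set_option autoImplicit false
set_option linter.style.haveILetI false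
set_option linter.unusedSectionVars false
set_option synthInstance.maxHeartbeats 400000
set_option maxHeartbeats 1600000

noncomputable section

namespace Fermat.Agent.S33.H849

open AlgebraicCurve ModularCurve
open Fermat.Agent.A2
open Fermat.Agent.S24 Fermat.Agent.A2.H708 Fermat.Agent.A2.H528
open Fermat.Agent.Ribet.H944.Wall Fermat.Agent.Ribet.H220

/-- The body of `Ribet.H220.LevelStatement` at a fixed `(A, M', p)` and level `N = p * M'`. -/
def LevelAt (p M' : ℕ) [NeZero (p * M')] (A : ValuationSubring Qb) : Prop :=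
  ∀ (E : IntermediateField ℚ Qb) (hE : GoodField A E) (ζ : E), IsPrimitiveRoot ζ p →
    ∀ (V : ValuationSubring (FE E (p * M'))) (W : FE E (p * M') ≃ₐ[E] FE E (p * M')),
      Mod.IsVinf A E (p * M') V → Mod.IsFricke E (p * M') W →
    ∀ (τ : Qb ≃ₐ[ℚ] Qb) (hτ : τ ∈ A.inertiaSubgroupIn ℚ) (c : ℕ), hE.res τ hτ ζ = ζ ^ c →
    ∀ y : FE E (p * M'), y ≠ 0 → DivisibleDiv E p y →
      Deep V p (algebraMap E (FE E (p * M')) ((p : E) ^ 2)) y →
      Deep (V.comap (W : FE E (p * M') →+* FE E (p * M'))) p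
        (algebraMap E (FE E (p * M')) ((p : E) ^ 2)) y →
      ∃ h : FE E (p * M'), h ≠ 0 ∧
        arithmeticRingAut (modularFunctionFieldFull (p * M')) (hE.res τ hτ) y = h ^ p * y ^ c

/-- The body of `Ribet.H220.DeepKummerStatement` at a fixed `(p, M', A)`. -/
def DeepKummerAt (p M' : ℕ) [NeZero (p * M')] (hp : p.Prime) (A : ValuationSubring Kbar)
    (hA : A.LiesOverPrime p) : Prop :=
  ∀ σ ∈ A.inertiaSubgroupIn ℚ, ∀ c : ℕ, CycloAt p σ c →
    ∀ f : FF (p * M'), f ≠ 0 → (∀ v : Place Kbar (FF (p * M')), (p : ℤ) ∣ v.ord f) →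
      Deep (Vinf (p * M') A hp.ne_zero hA) p (cF (p * M') ((p : Kbar) ^ 2)) f →
      Deep (Vzero (p * M') A hp.ne_zero hA) p (cF (p * M') ((p : Kbar) ^ 2)) f →
      ∃ (y : FF (p * M')) (a : Kbar), a ≠ 0 ∧ y ≠ 0 ∧
        arithmeticRingAut (modularFunctionFieldFull (p * M')) σ f =
          algebraMap Kbar (FF (p * M')) a * y ^ p * f ^ c

/-- The two comparison maps `F_E → F̄` on main agree. -/
theorem iotaN_eq_iota (E : IntermediateField ℚ Qb) (N : ℕ) [NeZero N] (y : FE E N) :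
    Mod.H553.iotaN E N y = T1.H669.iota E (modularFunctionFieldFull N) y :=
  Subtype.ext rfl

/-- **Descent glue, level by level.**  GD and LEVEL at every good level for `(A, M', p)` give
the body of DK at `(p, M', A)`. -/
theorem deepKummerAt_of_levelAt (hGD : GaussDescentStatement)
    (p M' : ℕ) [NeZero (p * M')] (hp : p.Prime)
    (A : ValuationSubring Kbar) (hA : A.LiesOverPrime p) (hLev : LevelAt p M' A) :
    DeepKummerAt p M' hp A hA := by
  intro σ hσ c hc f hf0 hord hI hZ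
  obtain ⟨g₁, u₁, hg₁, hf₁, z₁, hz₁, hu₁⟩ := hI
  obtain ⟨g₂, u₂, hg₂, hf₂, z₂, hz₂, hu₂⟩ := hZ
  -- a primitive `p`-th root of unity
  haveI : NeZero p := ⟨hp.ne_zero⟩
  haveI : NeZero ((p : ℕ) : Qb) := ⟨by exact_mod_cast hp.ne_zero⟩
  obtain ⟨ζ, hζ⟩ := HasEnoughRootsOfUnity.exists_primitiveRoot Qb p
  -- descent of the data
  obtain ⟨Sf, hSf⟩ := T1.H669.exists_finset_descent (modularFunctionFieldFull (p * M')) f
  obtain ⟨Sg₁, hSg₁⟩ := T1.H669.exists_finset_descent (modularFunctionFieldFull (p * M')) g₁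
  obtain ⟨Sz₁, hSz₁⟩ := T1.H669.exists_finset_descent (modularFunctionFieldFull (p * M')) z₁
  obtain ⟨Sg₂, hSg₂⟩ := T1.H669.exists_finset_descent (modularFunctionFieldFull (p * M')) g₂
  obtain ⟨Sz₂, hSz₂⟩ := T1.H669.exists_finset_descent (modularFunctionFieldFull (p * M')) z₂
  classical
  obtain ⟨E, hSE, hE⟩ := Fermat.Agent.A2.IF.H429.ifStatement p hp A hA
    (Sf ∪ Sg₁ ∪ Sz₁ ∪ Sg₂ ∪ Sz₂ ∪ {ζ})
  obtain ⟨yf, hyf⟩ := hSf E (fun s hs => hSE s (by simp [hs]))
  obtain ⟨yg₁, hyg₁⟩ := hSg₁ E (fun s hs => hSE s (by simp [hs]))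
  obtain ⟨yz₁, hyz₁⟩ := hSz₁ E (fun s hs => hSE s (by simp [hs]))
  obtain ⟨yg₂, hyg₂⟩ := hSg₂ E (fun s hs => hSE s (by simp [hs]))
  obtain ⟨yz₂, hyz₂⟩ := hSz₂ E (fun s hs => hSE s (by simp [hs]))
  have hζE : ζ ∈ E := hSE ζ (by simp)
  haveI : IsDiscreteValuationRing ↥(RE A E) := hE.dvr
  -- the root of unity at level `E`
  have hζ' : IsPrimitiveRoot (⟨ζ, hζE⟩ : E) p :=
    IsPrimitiveRoot.of_map_of_injective (f := algebraMap E Qb) (by exact hζ)
      (algebraMap E Qb).injective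
  have hres : hE.res σ hσ (⟨ζ, hζE⟩ : E) = (⟨ζ, hζE⟩ : E) ^ c := by
    apply Subtype.ext
    show σ ζ = (((⟨ζ, hζE⟩ : E) ^ c : E) : Qb)
    rw [hc ζ hζ.pow_eq_one]
    simp
  -- nonvanishing
  have hyf0 : yf ≠ 0 := by
    rintro rfl
    exact hf0 (by rw [← hyf, map_zero])
  have hyg₁0 : yg₁ ≠ 0 := by
    rintro rfl
    exact hg₁ (by rw [← hyg₁, map_zero])
  have hyg₂0 : yg₂ ≠ 0 := by
    rintro rfl
    exact hg₂ (by rw [← hyg₂, map_zero])
  -- the constant `p²`
  have hconst : T1.H669.iota E (modularFunctionFieldFull (p * M'))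
      (algebraMap E (FE E (p * M')) ((p : E) ^ 2)) = cF (p * M') ((p : Kbar) ^ 2) := by
    rw [T1.H669.iota_algebraMap]
    congr 1
  -- the two Gauss rings at level `E`
  have hV : Mod.IsVinf A E (p * M') (Mod.H553.VinfE A E (p * M')) :=
    Mod.H553.isVinf_VinfE A E (p * M')
  have hW : Mod.IsFricke E (p * M') (Mod.H553.wE E (p * M')) :=
    Mod.H553.isFricke_wE E (p * M')
  have hz₁V : yz₁ ∈ Mod.H553.VinfE A E (p * M') := by
    refine hGD A E (p * M') hp.ne_zero hA hE.dvr _ hV yz₁ ?_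
    rw [hyz₁]
    exact hz₁
  have hz₂V : Mod.H553.wE E (p * M') yz₂ ∈ Mod.H553.VinfE A E (p * M') := by
    refine hGD A E (p * M') hp.ne_zero hA hE.dvr _ hV _ ?_
    rw [← iotaN_eq_iota, Mod.H553.iota_wE, iotaN_eq_iota, hyz₂]
    exact hz₂
  -- the two depth conditions at level `E`
  have hdI : Deep (Mod.H553.VinfE A E (p * M')) p (algebraMap E (FE E (p * M')) ((p : E) ^ 2)) yf := by
    refine ⟨yg₁, 1 + algebraMap E (FE E (p * M')) ((p : E) ^ 2) * yz₁, hyg₁0, ?_, yz₁, hz₁V, rfl⟩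
    apply T1.H669.iota_injective E (modularFunctionFieldFull (p * M'))
    rw [map_mul, map_pow, map_add, map_one, map_mul, hconst, hyf, hyg₁, hyz₁, hf₁, hu₁]
  have hdZ : Deep ((Mod.H553.VinfE A E (p * M')).comap
      ((Mod.H553.wE E (p * M') : FE E (p * M') ≃ₐ[E] FE E (p * M')) : FE E (p * M') →+* FE E (p * M'))) p
      (algebraMap E (FE E (p * M')) ((p : E) ^ 2)) yf := by
    refine ⟨yg₂, 1 + algebraMap E (FE E (p * M')) ((p : E) ^ 2) * yz₂, hyg₂0, ?_, yz₂, hz₂V, rfl⟩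
    apply T1.H669.iota_injective E (modularFunctionFieldFull (p * M'))
    rw [map_mul, map_pow, map_add, map_one, map_mul, hconst, hyf, hyg₂, hyz₂, hf₂, hu₂]
  -- `p ∣ div` at level `E`
  have hdiv : DivisibleDiv E p yf :=
    T1.H669.divisibleDiv_of_ord E (modularFunctionFieldFull (p * M')) p yf hyf0 (fun v => by rw [hyf]; exact hord v)
  -- LEVEL
  obtain ⟨h, hh0, hh⟩ := hLev E hE ⟨ζ, hζE⟩ hζ' (Mod.H553.VinfE A E (p * M')) (Mod.H553.wE E (p * M')) hV hW
    σ hσ c hres yf hyf0 hdiv hdI hdZ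
  -- back to `F̄`
  refine ⟨T1.H669.iota E (modularFunctionFieldFull (p * M')) h, 1, one_ne_zero, T1.H669.iota_ne_zero E (modularFunctionFieldFull (p * M')) hh0, ?_⟩
  have h1 := congrArg (T1.H669.iota E (modularFunctionFieldFull (p * M'))) hh
  rw [map_mul, map_pow, map_pow,
    T1.H669.iota_arithmeticRingAut E (modularFunctionFieldFull (p * M')) σ (hE.res σ hσ) (fun e => rfl), hyf] at h1
  rw [h1, map_one, one_mul]

/-- **DK at READY levels** from LEVEL at READY levels and GD. -/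
theorem deepKummerReady_of_levelReady (hL : LevelReadyStatement)
    (hGD : GaussDescentStatement) : DeepKummerReadyStatement := by
  intro p M' _ _ _ hp hp2 hr hpM A hA
  exact deepKummerAt_of_levelAt hGD p M' hp A hA
    (fun E hE ζ hζ V W hV hW τ hτ c hc y hy hdiv hI hZ =>
      hL A E M' p (p * M') (Nat.mul_comm M' p) hp hp2 hr hpM hA hE ζ hζ V W hV hW τ hτ c hc y hy
        hdiv hI hZ)

/-- **DK (`p ≥ 5`)** from LEVEL and GD (the pointwise glue at `p ≥ 5`). -/
theorem deepKummer_of_level_ptw (hL : LevelStatement) (hGD : GaussDescentStatement) :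
    DeepKummerStatement := by
  intro p M' _ _ _ hp hp5 hpM A hA
  exact deepKummerAt_of_levelAt hGD p M' hp A hA
    (fun E hE ζ hζ V W hV hW τ hτ c hc y hy hdiv hI hZ =>
      hL A E M' p (p * M') (Nat.mul_comm M' p) hp hp5 hpM hA hE ζ hζ V W hV hW τ hτ c hc y hy
        hdiv hI hZ)

end Fermat.Agent.S33.H849

end
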